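/-
GATE-Z (S15) / [MOD-beta] leaf (T0), part B3 (helper3): BRIDGE between the formal Tate curve
(`T0/Formal.lean`, `T0/InvSeries.lean`) and the vocabulary pin `GZ/Tate/Defs.lean` (helper72).

* `tsum_lambert`: the LAMBERT REGROUPING in a complete ultrametric field,
  `∑_{n ≥ 1} g(n) qⁿ / (1 - qⁿ) = ev q (∑_m (∑_{d ∣ m} g d) X^m)` for every `g : ℕ → ℤ`, `‖q‖ < 1`;
* `sK_eq_ev : sK k q = ev q (sigmaSeries k)`, `a4_eq`, `a6_eq : a6 q = - ev q cSeries`;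
* **`tateCurve_eq_tateCurveAt : Tate.tateCurve q = T0.tateCurveAt q hq`**;
* in the pinned vocabulary: `c₄ = ev q e4Z = 1 + 240 s₃(q)`, `c₆ = -ev q e6Z = -1 + 504 s₅(q)`,
  `Δ = ev q deltaZ = q · ev q dedekindEtaUnit`, `‖c₄‖ = ‖c₆‖ = 1`, `‖Δ‖ = ‖q‖`, elliptic for `q ≠ 0`,
  `j = q⁻¹ · ev q jNum`, `‖j‖ = ‖q‖⁻¹`, and the Tate parameter of `a` with `1 < ‖a‖`.
-/
import Mathlib
import Fermat.Agent.GZ.Tate.Defs
import Fermat.Agent.GZ.Tate.T0.InvSeries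

set_option autoImplicit false
set_option linter.unusedSectionVars false

noncomputable section

namespace Fermat.Agent.GZ.Tate.T0

open PowerSeries ModularCurve Fermat.Agent.S16.L1h67

variable {K : Type*} [NormedField K] [IsUltrametricDist K] [CompleteSpace K]

/-! ### Lambert regrouping -/

/-- the power series `∑_m (∑_{d ∣ m} g d) X^m`. -/
def lamSeries (g : ℕ → ℤ) : PowerSeries ℤ :=
  PowerSeries.mk fun m => ∑ x ∈ m.divisorsAntidiagonal, g x.1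

@[simp] theorem coeff_lamSeries (g : ℕ → ℤ) (m : ℕ) :
    coeff m (lamSeries g) = ∑ x ∈ m.divisorsAntidiagonal, g x.1 := by
  simp [lamSeries]

theorem coeff_lamSeries_eq_sum_divisors (g : ℕ → ℤ) (m : ℕ) :
    coeff m (lamSeries g) = ∑ d ∈ m.divisors, g d := by
  rw [coeff_lamSeries, Nat.sum_divisorsAntidiagonal (fun i _ => g i)]

/-- the double family of the Lambert regrouping. -/
def lamFam (g : ℕ → ℤ) (q : K) (p : ℕ+ × ℕ+) : K :=
  ((g (p.1 : ℕ) : ℤ) : K) * q ^ ((p.1 : ℕ) * (p.2 : ℕ))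

theorem summable_lamFam (g : ℕ → ℤ) {q : K} (hq : ‖q‖ < 1) : Summable (lamFam g q) := by
  have hs := summable_prod_mul_pow (𝕜 := ℝ) 0 (r := ‖q‖) (by rwa [norm_norm])
  refine Summable.of_norm_bounded hs fun p => ?_
  rw [lamFam, norm_mul, norm_pow, pow_zero, one_mul]
  calc ‖((g (p.1 : ℕ) : ℤ) : K)‖ * ‖q‖ ^ ((p.1 : ℕ) * (p.2 : ℕ))
      ≤ 1 * ‖q‖ ^ ((p.1 : ℕ) * (p.2 : ℕ)) := by
        gcongr
        exact IsUltrametricDist.norm_intCast_le_one K _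
    _ = ‖q‖ ^ ((p.1 : ℕ) * (p.2 : ℕ)) := one_mul _

theorem hasSum_lam_pnat (g : ℕ → ℤ) {q : K} (hq : ‖q‖ < 1) :
    HasSum (fun n : ℕ+ => ((coeff (n : ℕ) (lamSeries g) : ℤ) : K) * q ^ (n : ℕ))
      (∑' p : ℕ+ × ℕ+, lamFam g q p) := by
  have hS := (summable_lamFam g hq).hasSum
  have hS' := sigmaAntidiagonalEquivProd.hasSum_iff.mpr hS
  refine hS'.sigma fun n => ?_
  have hfin := hasSum_fintype (fun c : Nat.divisorsAntidiagonal (n : ℕ) =>
    ((lamFam g q) ∘ sigmaAntidiagonalEquivProd) ⟨n, c⟩)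
  convert hfin using 1
  rw [coeff_lamSeries, Int.cast_sum, Finset.sum_mul, Finset.univ_eq_attach,
    ← Finset.sum_attach (n : ℕ).divisorsAntidiagonal]
  refine Finset.sum_congr rfl fun x _ => ?_
  have hx : ((divisorsAntidiagonalFactors n x).1 : ℕ) * ((divisorsAntidiagonalFactors n x).2 : ℕ)
      = (n : ℕ) := divisorsAntidiagonalFactors_eq x
  change _ = ((g ((divisorsAntidiagonalFactors n x).1 : ℕ) : ℤ) : K) *
    q ^ (((divisorsAntidiagonalFactors n x).1 : ℕ) * ((divisorsAntidiagonalFactors n x).2 : ℕ))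
  rw [hx]
  rfl

theorem ev_lamSeries (g : ℕ → ℤ) {q : K} (hq : ‖q‖ < 1) :
    ev q (lamSeries g) = ∑' p : ℕ+ × ℕ+, lamFam g q p := by
  have h1 := hasSum_lam_pnat g hq
  have h2 := (hasSum_pnat_iff_hasSum_succ
    (f := fun n : ℕ => ((coeff n (lamSeries g) : ℤ) : K) * q ^ n)).mp h1
  have h3 := (hasSum_nat_add_iff (f := fun n : ℕ => ((coeff n (lamSeries g) : ℤ) : K) * q ^ n) 1).mp h2
  have h4 : HasSum (fun n : ℕ => ((coeff n (lamSeries g) : ℤ) : K) * q ^ n)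
      (∑' p : ℕ+ × ℕ+, lamFam g q p) := by
    simpa using h3
  exact h4.tsum_eq

theorem tsum_geometric_succ {x : K} (hx : ‖x‖ < 1) : ∑' d : ℕ, x ^ (d + 1) = x / (1 - x) := by
  have h := tsum_geometric_of_norm_lt_one hx
  rw [div_eq_mul_inv, ← h, ← tsum_mul_left]
  refine tsum_congr fun d => ?_
  rw [pow_succ']

theorem tsum_lamFam_inner (g : ℕ → ℤ) {q : K} (hq : ‖q‖ < 1) (b : ℕ+) :
    ∑' c : ℕ+, lamFam g q (b, c) = ((g (b : ℕ) : ℤ) : K) * q ^ (b : ℕ) / (1 - q ^ (b : ℕ)) := by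
  have hb : ‖q ^ (b : ℕ)‖ < 1 := by
    rw [norm_pow]
    exact pow_lt_one₀ (norm_nonneg _) hq b.ne_zero
  have h1 : ∀ c : ℕ+, lamFam g q (b, c) = ((g (b : ℕ) : ℤ) : K) * (q ^ (b : ℕ)) ^ (c : ℕ) := by
    intro c
    rw [lamFam, pow_mul]
  simp_rw [h1]
  rw [tsum_mul_left, tsum_pnat_eq_tsum_succ (f := fun d : ℕ => (q ^ (b : ℕ)) ^ d),
    tsum_geometric_succ hb, mul_div_assoc]

/-- **Lambert regrouping**: `∑_{n ≥ 1} g(n) qⁿ/(1 - qⁿ) = ∑_m (∑_{d ∣ m} g d) q^m`. -/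
theorem tsum_lambert (g : ℕ → ℤ) {q : K} (hq : ‖q‖ < 1) :
    ∑' n : ℕ, ((g (n + 1) : ℤ) : K) * q ^ (n + 1) / (1 - q ^ (n + 1)) = ev q (lamSeries g) := by
  rw [ev_lamSeries g hq, (summable_lamFam g hq).tsum_prod]
  simp_rw [tsum_lamFam_inner g hq]
  rw [tsum_pnat_eq_tsum_succ (f := fun n : ℕ => ((g n : ℤ) : K) * q ^ n / (1 - q ^ n))]

/-! ### the series of the vocabulary pin -/

open scoped ArithmeticFunction.sigma in
theorem lamSeries_pow (k : ℕ) : lamSeries (fun d => (d : ℤ) ^ k) = sigmaSeries k := by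
  ext m
  rw [coeff_lamSeries_eq_sum_divisors, sigmaSeries, coeff_mk]
  split_ifs with h
  · subst h
    simp
  · rw [ArithmeticFunction.sigma_apply]
    push_cast
    rfl

/-- **`s_k(q)` (Lambert form of the pin) `= ∑ σ_k(n) qⁿ`.** -/
theorem sK_eq_ev (k : ℕ) {q : K} (hq : ‖q‖ < 1) : sK k q = ev q (sigmaSeries k) := by
  rw [← lamSeries_pow, ← tsum_lambert _ hq, sK]
  refine tsum_congr fun n => ?_
  rw [sTerm]
  push_cast
  rfl

theorem lamSeries_a6Coeff : lamSeries (fun d => (a6Coeff d : ℤ)) = cSeries := by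
  have h12 : (12 : PowerSeries ℤ) ≠ 0 := by
    have h12' : (12 : PowerSeries ℤ) = C (12 : ℤ) := by simp
    rw [h12']
    intro h
    have h2 := congrArg (constantCoeff (R := ℤ)) h
    rw [constantCoeff_C, map_zero] at h2
    norm_num at h2
  apply mul_left_cancel₀ h12
  rw [twelve_mul_cSeries, ← lamSeries_pow, ← lamSeries_pow]
  ext m
  have h12' : (12 : PowerSeries ℤ) = C (12 : ℤ) := by simp
  have h5 : (5 : PowerSeries ℤ) = C (5 : ℤ) := by simp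
  have h7 : (7 : PowerSeries ℤ) = C (7 : ℤ) := by simp
  rw [h12', h5, h7, map_add, coeff_C_mul, coeff_C_mul, coeff_C_mul, coeff_lamSeries,
    coeff_lamSeries, coeff_lamSeries, Finset.mul_sum, Finset.mul_sum, Finset.mul_sum,
    ← Finset.sum_add_distrib]
  refine Finset.sum_congr rfl fun x _ => ?_
  have := a6Coeff_spec x.1
  exact_mod_cast this

theorem a4_eq {q : K} (hq : ‖q‖ < 1) : a4 q = -5 * ev q s3 := by
  rw [a4, sK_eq_ev 3 hq]

theorem a6_eq {q : K} (hq : ‖q‖ < 1) : a6 q = -ev q cSeries := by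
  rw [a6, ← lamSeries_a6Coeff, ← tsum_lambert _ hq]
  congr 1
  refine tsum_congr fun n => ?_
  rw [a6Term]
  push_cast
  rfl

/-- **the pinned Tate curve is the base change of the formal Tate curve.** -/
theorem tateCurve_eq_tateCurveAt (q : K) (hq : ‖q‖ < 1) :
    Fermat.Agent.GZ.Tate.tateCurve q = tateCurveAt q hq := by
  ext
  · show (1 : K) = (tateCurveAt q hq).a₁
    rw [tateCurveAt_a₁]
  · show (0 : K) = (tateCurveAt q hq).a₂
    rw [tateCurveAt_a₂]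
  · show (0 : K) = (tateCurveAt q hq).a₃
    rw [tateCurveAt_a₃]
  · show a4 q = (tateCurveAt q hq).a₄
    rw [tateCurveAt_a₄, a4_eq hq]
  · show a6 q = (tateCurveAt q hq).a₆
    rw [tateCurveAt_a₆, a6_eq hq]

/-! ### invariants of the pinned Tate curve -/

section Pinned

variable (q : K) (hq : ‖q‖ < 1)

include hq

theorem pinned_c₄ : (Fermat.Agent.GZ.Tate.tateCurve q).c₄ = ev q e4Z := by
  rw [tateCurve_eq_tateCurveAt q hq, tateCurveAt_c₄]

theorem pinned_c₄_eq : (Fermat.Agent.GZ.Tate.tateCurve q).c₄ = 1 + 240 * sK 3 q := by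
  rw [pinned_c₄ q hq, e4Z, ev_add hq, ev_mul hq, ev_one, sK_eq_ev 3 hq]
  congr 2
  have := ev_natCast q 240
  simpa using this

theorem pinned_c₆ : (Fermat.Agent.GZ.Tate.tateCurve q).c₆ = -ev q e6Z := by
  rw [tateCurve_eq_tateCurveAt q hq, tateCurveAt_c₆]

theorem pinned_c₆_eq : (Fermat.Agent.GZ.Tate.tateCurve q).c₆ = -1 + 504 * sK 5 q := by
  rw [pinned_c₆ q hq, e6Z, ev_sub hq, ev_mul hq, ev_one, sK_eq_ev 5 hq]
  have : ev q (504 : PowerSeries ℤ) = 504 := by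
    have := ev_natCast q 504
    simpa using this
  rw [this]
  ring

theorem pinned_Δ : (Fermat.Agent.GZ.Tate.tateCurve q).Δ = ev q deltaZ := by
  rw [tateCurve_eq_tateCurveAt q hq, tateCurveAt_Δ]

theorem pinned_Δ_eq : (Fermat.Agent.GZ.Tate.tateCurve q).Δ = q * ev q dedekindEtaUnit := by
  rw [tateCurve_eq_tateCurveAt q hq, tateCurveAt_Δ_eq]

theorem norm_pinned_c₄ : ‖(Fermat.Agent.GZ.Tate.tateCurve q).c₄‖ = 1 := by
  rw [tateCurve_eq_tateCurveAt q hq, norm_tateCurveAt_c₄]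

theorem norm_pinned_c₆ : ‖(Fermat.Agent.GZ.Tate.tateCurve q).c₆‖ = 1 := by
  rw [tateCurve_eq_tateCurveAt q hq, norm_tateCurveAt_c₆]

theorem norm_pinned_Δ : ‖(Fermat.Agent.GZ.Tate.tateCurve q).Δ‖ = ‖q‖ := by
  rw [tateCurve_eq_tateCurveAt q hq, norm_tateCurveAt_Δ]

theorem pinned_Δ_ne_zero (hq0 : q ≠ 0) : (Fermat.Agent.GZ.Tate.tateCurve q).Δ ≠ 0 := by
  rw [tateCurve_eq_tateCurveAt q hq]
  exact tateCurveAt_Δ_ne_zero q hq hq0

theorem pinned_isElliptic (hq0 : q ≠ 0) : (Fermat.Agent.GZ.Tate.tateCurve q).IsElliptic :=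
  ⟨(pinned_Δ_ne_zero q hq hq0).isUnit⟩

/-- **`j(E_q) = q⁻¹ · jNum(q)`** for the pinned Tate curve. -/
theorem pinned_j [h : (Fermat.Agent.GZ.Tate.tateCurve q).IsElliptic] :
    (Fermat.Agent.GZ.Tate.tateCurve q).j = q⁻¹ * ev q jNum := by
  have hE : (tateCurveAt q hq).IsElliptic := by
    rw [← tateCurve_eq_tateCurveAt q hq]
    exact h
  have h1 : (Fermat.Agent.GZ.Tate.tateCurve q).j = (tateCurveAt q hq).j := by
    simp_rw [tateCurve_eq_tateCurveAt q hq]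
  rw [h1, tateCurveAt_j]

theorem norm_pinned_j [h : (Fermat.Agent.GZ.Tate.tateCurve q).IsElliptic] :
    ‖(Fermat.Agent.GZ.Tate.tateCurve q).j‖ = ‖q‖⁻¹ := by
  rw [pinned_j q hq, norm_mul, norm_inv, norm_ev_eq_one hq constantCoeff_jNum, mul_one]

end Pinned

/-- **(T0), final form in the pinned vocabulary**: for `1 < ‖a‖` there is a `q`, `q ≠ 0`,
`‖q‖ = ‖a‖⁻¹ < 1`, such that the pinned Tate curve `E_q` is elliptic with `j(E_q) = a`; and it is
unique among all `q'` with `0 < ‖q'‖ < 1`. -/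
theorem exists_pinned_j_eq {a : K} (ha : 1 < ‖a‖) :
    ∃ q : K, q ≠ 0 ∧ ‖q‖ < 1 ∧ ‖q‖ = ‖a‖⁻¹ ∧
      ∃ _hE : (Fermat.Agent.GZ.Tate.tateCurve q).IsElliptic,
        (Fermat.Agent.GZ.Tate.tateCurve q).j = a ∧
        ∀ q' : K, q' ≠ 0 → ‖q'‖ < 1 →
          ∀ _hE' : (Fermat.Agent.GZ.Tate.tateCurve q').IsElliptic,
            (Fermat.Agent.GZ.Tate.tateCurve q').j = a → q' = q := by
  obtain ⟨q, ⟨⟨hq, hq0⟩, hqa⟩, huniq⟩ := existsUnique_tateParameter ha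
  have hE := pinned_isElliptic q hq hq0
  refine ⟨q, hq0, hq, norm_eq_of_tateParameter hq hqa, hE, ?_, ?_⟩
  · rw [pinned_j q hq]
    exact hqa
  · intro q' hq'0 hq' hE' hj
    rw [pinned_j q' hq'] at hj
    exact huniq q' ⟨⟨hq', hq'0⟩, hj⟩

end Fermat.Agent.GZ.Tate.T0
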