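/-
GATE-Z (S15) / [MOD-beta] leaf (T0), part B1 (helper3): EVALUATION OF INTEGRAL POWER SERIES
in a complete ultrametric normed field.  Mathlib-only.

For `K` a complete normed field with ultrametric distance and `x : K`, `‖x‖ < 1`:

* `ev x f = ∑' n, (coeff n f : K) * x ^ n` (total function, junk for `‖x‖ ≥ 1`);
* `evalInt x hx : PowerSeries ℤ →+* K`, `evalInt x hx f = ev x f`;
* `ev x X = x`, `ev x (C c) = c`, `‖ev x f‖ ≤ 1`, `‖ev x f - constantCoeff f‖ ≤ ‖x‖`,
  `‖ev x f‖ = 1` if `constantCoeff f = 1`, `‖ev x (X * U)‖ = ‖x‖` if `constantCoeff U = 1`;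
* `norm_ev_sub_le : ‖ev x f - ev y f‖ ≤ ‖x - y‖` (1-Lipschitz in the point);
* `ev_map_of_continuous`: compatibility with continuous ring homs `K →+* L`;
* **inverse function theorem** `existsUnique_ev_X_mul_eq`: if `constantCoeff U = 1` and
  `‖b‖ < 1` there is a unique `q`, `‖q‖ < 1`, with `ev q (X * U) = b`; moreover `‖q‖ = ‖b‖`.
-/
import Mathlib

set_option autoImplicit false
set_option linter.unusedSectionVars false

noncomputable section

namespace Fermat.Agent.GZ.Tate.T0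

open PowerSeries

section Basic

variable {K : Type*} [NormedField K] [IsUltrametricDist K]

/-- the `n`-th term of the evaluation of an integral power series at `x`. -/
def evTerm (x : K) (f : PowerSeries ℤ) (n : ℕ) : K := ((coeff n f : ℤ) : K) * x ^ n

theorem norm_evTerm_le (x : K) (f : PowerSeries ℤ) (n : ℕ) : ‖evTerm x f n‖ ≤ ‖x‖ ^ n := by
  rw [evTerm, norm_mul, norm_pow]
  calc ‖((coeff n f : ℤ) : K)‖ * ‖x‖ ^ n ≤ 1 * ‖x‖ ^ n := by
        gcongr
        exact IsUltrametricDist.norm_intCast_le_one K _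
    _ = ‖x‖ ^ n := one_mul _

theorem norm_evTerm_le_one {x : K} (hx : ‖x‖ ≤ 1) (f : PowerSeries ℤ) (n : ℕ) :
    ‖evTerm x f n‖ ≤ 1 :=
  (norm_evTerm_le x f n).trans (pow_le_one₀ (norm_nonneg _) hx)

theorem summable_norm_evTerm {x : K} (hx : ‖x‖ < 1) (f : PowerSeries ℤ) :
    Summable fun n => ‖evTerm x f n‖ :=
  Summable.of_nonneg_of_le (fun _ => norm_nonneg _) (norm_evTerm_le x f)
    (summable_geometric_of_lt_one (norm_nonneg x) hx)

theorem norm_pow_sub_pow_le {x y : K} (hx : ‖x‖ ≤ 1) (hy : ‖y‖ ≤ 1) (n : ℕ) :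
    ‖x ^ n - y ^ n‖ ≤ ‖x - y‖ := by
  rw [← geom_sum₂_mul, norm_mul]
  calc ‖∑ i ∈ Finset.range n, x ^ i * y ^ (n - 1 - i)‖ * ‖x - y‖ ≤ 1 * ‖x - y‖ := by
        gcongr
        refine IsUltrametricDist.norm_sum_le_of_forall_le_of_nonneg zero_le_one fun i _ => ?_
        rw [norm_mul, norm_pow, norm_pow]
        exact mul_le_one₀ (pow_le_one₀ (norm_nonneg _) hx) (pow_nonneg (norm_nonneg _) _)
          (pow_le_one₀ (norm_nonneg _) hy)
    _ = ‖x - y‖ := one_mul _

end Basic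

section Complete

variable {K : Type*} [NormedField K] [IsUltrametricDist K] [CompleteSpace K]

theorem summable_evTerm {x : K} (hx : ‖x‖ < 1) (f : PowerSeries ℤ) : Summable (evTerm x f) :=
  (summable_norm_evTerm hx f).of_norm

/-- evaluation of an integral power series at a point of the open unit disc (junk value outside). -/
def ev (x : K) (f : PowerSeries ℤ) : K := ∑' n, evTerm x f n

theorem ev_def (x : K) (f : PowerSeries ℤ) : ev x f = ∑' n, ((coeff n f : ℤ) : K) * x ^ n := rfl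

theorem hasSum_ev {x : K} (hx : ‖x‖ < 1) (f : PowerSeries ℤ) : HasSum (evTerm x f) (ev x f) :=
  (summable_evTerm hx f).hasSum

theorem ev_zero (x : K) : ev x 0 = 0 := by
  simp [ev, evTerm]

theorem ev_C (x : K) (c : ℤ) : ev x (C c) = (c : K) := by
  rw [ev, tsum_eq_single 0]
  · simp [evTerm]
  · intro n hn
    rw [evTerm, coeff_C, if_neg hn, Int.cast_zero, zero_mul]

theorem ev_one (x : K) : ev x 1 = 1 := by
  have := ev_C x 1
  simpa using this

theorem ev_X (x : K) : ev x X = x := by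
  rw [ev, tsum_eq_single 1]
  · simp [evTerm]
  · intro n hn
    simp [evTerm, coeff_X, hn]

theorem ev_add {x : K} (hx : ‖x‖ < 1) (f g : PowerSeries ℤ) : ev x (f + g) = ev x f + ev x g := by
  rw [ev, ev, ev, ← (summable_evTerm hx f).tsum_add (summable_evTerm hx g)]
  refine tsum_congr fun n => ?_
  simp only [evTerm, map_add, Int.cast_add, add_mul]

theorem ev_neg (x : K) (f : PowerSeries ℤ) : ev x (-f) = -ev x f := by
  rw [ev, ev, ← tsum_neg]
  refine tsum_congr fun n => ?_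
  simp only [evTerm, map_neg, Int.cast_neg, neg_mul]

theorem ev_sub {x : K} (hx : ‖x‖ < 1) (f g : PowerSeries ℤ) : ev x (f - g) = ev x f - ev x g := by
  rw [sub_eq_add_neg, ev_add hx, ev_neg, sub_eq_add_neg]

theorem ev_mul {x : K} (hx : ‖x‖ < 1) (f g : PowerSeries ℤ) : ev x (f * g) = ev x f * ev x g := by
  rw [ev, ev, ev, tsum_mul_tsum_eq_tsum_sum_antidiagonal_of_summable_norm
    (summable_norm_evTerm hx f) (summable_norm_evTerm hx g)]
  refine tsum_congr fun n => ?_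
  rw [evTerm, coeff_mul, Int.cast_sum, Finset.sum_mul]
  refine Finset.sum_congr rfl fun kl hkl => ?_
  have hkl' : kl.1 + kl.2 = n := Finset.HasAntidiagonal.mem_antidiagonal.mp hkl
  rw [evTerm, evTerm, ← hkl', Int.cast_mul, pow_add]
  ring

/-- **evaluation at a point of the open unit disc as a ring hom `ℤ⟦X⟧ →+* K`.** -/
def evalInt (x : K) (hx : ‖x‖ < 1) : PowerSeries ℤ →+* K where
  toFun := ev x
  map_one' := ev_one x
  map_mul' := ev_mul hx
  map_zero' := ev_zero x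
  map_add' := ev_add hx

@[simp] theorem evalInt_apply (x : K) (hx : ‖x‖ < 1) (f : PowerSeries ℤ) :
    evalInt x hx f = ev x f := rfl

theorem ev_pow {x : K} (hx : ‖x‖ < 1) (f : PowerSeries ℤ) (n : ℕ) : ev x (f ^ n) = ev x f ^ n :=
  map_pow (evalInt x hx) f n

theorem ev_X_mul {x : K} (hx : ‖x‖ < 1) (f : PowerSeries ℤ) : ev x (X * f) = x * ev x f := by
  rw [ev_mul hx, ev_X]

theorem ev_intCast (x : K) (c : ℤ) : ev x (c : PowerSeries ℤ) = (c : K) := by
  have : (c : PowerSeries ℤ) = C c := by simp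
  rw [this, ev_C]

theorem ev_natCast (x : K) (c : ℕ) : ev x (c : PowerSeries ℤ) = (c : K) := by
  have := ev_intCast x (c : ℤ)
  simpa using this

/-! ### norm estimates -/

theorem norm_ev_le_one {x : K} (hx : ‖x‖ ≤ 1) (f : PowerSeries ℤ) : ‖ev x f‖ ≤ 1 :=
  IsUltrametricDist.norm_tsum_le_of_forall_le_of_nonneg zero_le_one
    fun n => norm_evTerm_le_one hx f n

theorem ev_eq_constantCoeff_add {x : K} (hx : ‖x‖ < 1) (f : PowerSeries ℤ) :
    ev x f = ((constantCoeff f : ℤ) : K) + ∑' n, evTerm x f (n + 1) := by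
  rw [ev, (summable_evTerm hx f).tsum_eq_zero_add]
  simp [evTerm]

theorem norm_ev_sub_constantCoeff_le {x : K} (hx : ‖x‖ < 1) (f : PowerSeries ℤ) :
    ‖ev x f - ((constantCoeff f : ℤ) : K)‖ ≤ ‖x‖ := by
  rw [ev_eq_constantCoeff_add hx, add_sub_cancel_left]
  refine IsUltrametricDist.norm_tsum_le_of_forall_le_of_nonneg (norm_nonneg _) fun n => ?_
  refine (norm_evTerm_le x f (n + 1)).trans ?_
  rw [pow_succ]
  exact mul_le_of_le_one_left (norm_nonneg _) (pow_le_one₀ (norm_nonneg _) hx.le)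

theorem norm_ev_eq_one {x : K} (hx : ‖x‖ < 1) {f : PowerSeries ℤ} (hf : constantCoeff f = 1) :
    ‖ev x f‖ = 1 := by
  have h1 := norm_ev_sub_constantCoeff_le hx f
  rw [hf, Int.cast_one] at h1
  have h2 : ‖ev x f - 1‖ < ‖(1 : K)‖ := by
    rw [norm_one]; exact h1.trans_lt hx
  have h3 : ev x f = (ev x f - 1) + 1 := by ring
  rw [h3, IsUltrametricDist.norm_add_eq_max_of_norm_ne_norm h2.ne, max_eq_right h2.le, norm_one]

theorem ev_ne_zero {x : K} (hx : ‖x‖ < 1) {f : PowerSeries ℤ} (hf : constantCoeff f = 1) :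
    ev x f ≠ 0 := by
  intro h
  have := norm_ev_eq_one hx hf
  rw [h, norm_zero] at this
  exact zero_ne_one this

theorem norm_ev_X_mul {x : K} (hx : ‖x‖ < 1) {U : PowerSeries ℤ} (hU : constantCoeff U = 1) :
    ‖ev x (X * U)‖ = ‖x‖ := by
  rw [ev_X_mul hx, norm_mul, norm_ev_eq_one hx hU, mul_one]

/-- **the evaluation is 1-Lipschitz in the point.** -/
theorem norm_ev_sub_le {x y : K} (hx : ‖x‖ < 1) (hy : ‖y‖ < 1) (f : PowerSeries ℤ) :
    ‖ev x f - ev y f‖ ≤ ‖x - y‖ := by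
  rw [ev, ev, ← (summable_evTerm hx f).tsum_sub (summable_evTerm hy f)]
  refine IsUltrametricDist.norm_tsum_le_of_forall_le_of_nonneg (norm_nonneg _) fun n => ?_
  rw [evTerm, evTerm, ← mul_sub, norm_mul]
  calc ‖((coeff n f : ℤ) : K)‖ * ‖x ^ n - y ^ n‖ ≤ 1 * ‖x - y‖ := by
        gcongr
        · exact IsUltrametricDist.norm_intCast_le_one K _
        · exact norm_pow_sub_pow_le hx.le hy.le n
    _ = ‖x - y‖ := one_mul _

/-- compatibility with continuous ring homomorphisms. -/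
theorem ev_map_of_continuous {L : Type*} [NormedField L] [IsUltrametricDist L] [CompleteSpace L]
    (ι : K →+* L) (hι : Continuous ι) {x : K} (hx : ‖x‖ < 1) (f : PowerSeries ℤ) :
    ι (ev x f) = ev (ι x) f := by
  have h := (hasSum_ev hx f).map ι.toAddMonoidHom hι
  have h2 : ι (ev x f) = ∑' n, ι (evTerm x f n) := h.tsum_eq.symm
  rw [h2, ev]
  refine tsum_congr fun n => ?_
  simp [evTerm]

end Complete

/-! ### the inverse function theorem for `X * U`, `U(0) = 1` -/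

section Inverse

variable {K : Type*} [NormedField K] [IsUltrametricDist K] [CompleteSpace K]

theorem norm_inv_ev_sub_le {x y : K} (hx : ‖x‖ < 1) (hy : ‖y‖ < 1) {U : PowerSeries ℤ}
    (hU : constantCoeff U = 1) : ‖(ev x U)⁻¹ - (ev y U)⁻¹‖ ≤ ‖x - y‖ := by
  have hx0 := ev_ne_zero hx hU
  have hy0 := ev_ne_zero hy hU
  rw [inv_sub_inv hx0 hy0, norm_div, norm_mul, norm_ev_eq_one hx hU, norm_ev_eq_one hy hU, mul_one,
    div_one, norm_sub_rev]
  exact norm_ev_sub_le hx hy U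

/-- uniqueness in the inverse function theorem. -/
theorem ev_X_mul_injOn {U : PowerSeries ℤ} (hU : constantCoeff U = 1) {x y : K}
    (hx : ‖x‖ < 1) (hy : ‖y‖ < 1) (h : ev x (X * U) = ev y (X * U)) : x = y := by
  by_contra hne
  have hxy : 0 < ‖x - y‖ := norm_pos_iff.mpr (sub_ne_zero.mpr hne)
  rw [ev_X_mul hx, ev_X_mul hy] at h
  -- `x - y = x * (1 - ev x U / ev y U)`, and `‖ev y U - ev x U‖ ≤ ‖x - y‖`, `‖x‖ < 1`
  have hy0 := ev_ne_zero hy hU
  have h1 : x - y = x * ((ev y U - ev x U) * (ev y U)⁻¹) := by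
    have : y = x * ev x U * (ev y U)⁻¹ := by
      rw [h, mul_assoc, mul_inv_cancel₀ hy0, mul_one]
    calc x - y = x - x * ev x U * (ev y U)⁻¹ := by rw [← this]
      _ = x * ((ev y U - ev x U) * (ev y U)⁻¹) := by
        field_simp
  have h2 : ‖x - y‖ ≤ ‖x‖ * ‖x - y‖ := by
    calc ‖x - y‖ = ‖x‖ * (‖ev y U - ev x U‖ * ‖(ev y U)⁻¹‖) := by
          rw [← norm_mul, ← norm_mul, ← h1]
      _ = ‖x‖ * ‖ev y U - ev x U‖ := by
          rw [norm_inv, norm_ev_eq_one hy hU, inv_one, mul_one]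
      _ ≤ ‖x‖ * ‖x - y‖ := by
          gcongr
          rw [norm_sub_rev]
          exact norm_ev_sub_le hx hy U
  have h3 : ‖x‖ * ‖x - y‖ < 1 * ‖x - y‖ := by gcongr
  rw [one_mul] at h3
  exact absurd h2 (not_le.mpr h3)

/-- existence in the inverse function theorem (contraction `q ↦ b / U(q)` on the closed ball of
radius `‖b‖`). -/
theorem exists_ev_X_mul_eq {U : PowerSeries ℤ} (hU : constantCoeff U = 1) {b : K} (hb : ‖b‖ < 1) :
    ∃ q : K, ‖q‖ = ‖b‖ ∧ ev q (X * U) = b := by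
  classical
  set s : Set K := Metric.closedBall (0 : K) ‖b‖ with hs
  have hmem : ∀ {q : K}, q ∈ s ↔ ‖q‖ ≤ ‖b‖ := by
    intro q; rw [hs, mem_closedBall_zero_iff]
  have hlt : ∀ {q : K}, q ∈ s → ‖q‖ < 1 := fun hq => (hmem.mp hq).trans_lt hb
  set T : K → K := fun q => b * (ev q U)⁻¹ with hT
  have hnormT : ∀ {q : K}, q ∈ s → ‖T q‖ = ‖b‖ := by
    intro q hq
    rw [hT]
    simp only
    rw [norm_mul, norm_inv, norm_ev_eq_one (hlt hq) hU, inv_one, mul_one]
  have hmaps : Set.MapsTo T s s := fun q hq => hmem.mpr (hnormT hq).le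
  have hcomplete : IsComplete s := Metric.isClosed_closedBall.isComplete
  have hcontr : ContractingWith ⟨‖b‖, norm_nonneg b⟩ (hmaps.restrict T s s) := by
    refine ⟨by exact_mod_cast hb, LipschitzWith.of_dist_le_mul fun x y => ?_⟩
    rw [Subtype.dist_eq, Subtype.dist_eq, dist_eq_norm, dist_eq_norm]
    show ‖T x - T y‖ ≤ ‖b‖ * ‖(x : K) - y‖
    rw [hT]
    simp only
    rw [← mul_sub, norm_mul]
    gcongr
    exact norm_inv_ev_sub_le (hlt x.2) (hlt y.2) hU
  have h0 : (0 : K) ∈ s := hmem.mpr (by rw [norm_zero]; exact norm_nonneg b)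
  obtain ⟨q, hqs, hfix, -⟩ := hcontr.exists_fixedPoint' hcomplete hmaps h0 (edist_ne_top _ _)
  have hq1 := hlt hqs
  have hfix' : b * (ev q U)⁻¹ = q := hfix
  refine ⟨q, ?_, ?_⟩
  · rw [← hfix']
    exact hnormT hqs
  · rw [ev_X_mul hq1]
    have h0' := ev_ne_zero hq1 hU
    calc q * ev q U = b * (ev q U)⁻¹ * ev q U := by rw [hfix']
      _ = b := by rw [mul_assoc, inv_mul_cancel₀ h0', mul_one]

/-- **inverse function theorem**: `q ↦ q · U(q)` (`U ∈ ℤ⟦X⟧`, `U(0) = 1`) is a norm-preserving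
bijection of the open unit disc. -/
theorem existsUnique_ev_X_mul_eq {U : PowerSeries ℤ} (hU : constantCoeff U = 1) {b : K}
    (hb : ‖b‖ < 1) : ∃! q : K, ‖q‖ < 1 ∧ ev q (X * U) = b := by
  obtain ⟨q, hq, hqb⟩ := exists_ev_X_mul_eq hU hb
  refine ⟨q, ⟨hq ▸ hb, hqb⟩, ?_⟩
  rintro q' ⟨hq', hq'b⟩
  exact ev_X_mul_injOn hU hq' (hq ▸ hb) (hq'b.trans hqb.symm)

end Inverse

end Fermat.Agent.GZ.Tate.T0
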