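/-
GATE-Z (S15) / [MOD-beta] leaf (T0), part A (helper3): THE FORMAL TATE CURVE over `ℤ⟦q⟧`.

  `E_q : y² + x y = x³ + a₄(q) x + a₆(q)`,   `a₄ = -5 s₃`,   `a₆ = -(5 s₃ + 7 s₅)/12`,
  `s_k = ∑_{n ≥ 1} σ_k(n) qⁿ`

on the integral series of `S16/LevelOneSeries` (`sigmaSeries`, `cSeries`, `e4Z`, `e6Z`, `deltaZ`):

* `tateCurve : WeierstrassCurve ℤ⟦X⟧` with `b₂ = 1`, `b₄ = -10 s₃`, `b₆ = -4 c`,
  **`c₄ = e4Z`, `c₆ = -e6Z`, `Δ = deltaZ`** (`= X * dedekindEtaUnit` by `GJ/Haupt/Formal2`);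
* `jNum_mul_Δ : jNum * tateCurve.Δ = X * tateCurve.c₄ ^ 3`  (the frozen `jq = X⁻¹ · jNum`, so
  `j(E_q) = jq`);
* `invJ := X * dedekindEtaUnit * e4Inv ^ 3` (`= 1 / j`), `invJ = X * invJUnit` with `invJUnit` of
  constant coefficient `1`, `invJ * e4Z ^ 3 = deltaZ`;
* base change: for every ring hom `φ : ℤ⟦X⟧ →+* R` the curve `tateCurve.map φ` has
  `c₄ = φ e4Z`, `c₆ = - φ e6Z`, `Δ = φ deltaZ`.
-/
import Mathlib
import Fermat.Agent.S16.LevelOneSeries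
import Fermat.Agent.GJ.Haupt.Formal2

set_option autoImplicit false

noncomputable section

namespace Fermat.Agent.GZ.Tate.T0

open PowerSeries ModularCurve Fermat.Agent.S16.L1h67

/-- `s₃ = ∑ σ₃(n) qⁿ`. -/
abbrev s3 : PowerSeries ℤ := sigmaSeries 3

/-- `s₅ = ∑ σ₅(n) qⁿ`. -/
abbrev s5 : PowerSeries ℤ := sigmaSeries 5

/-- **the formal Tate curve** `y² + x y = x³ - 5 s₃ x - (5 s₃ + 7 s₅)/12` over `ℤ⟦q⟧`. -/
def tateCurve : WeierstrassCurve (PowerSeries ℤ) where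
  a₁ := 1
  a₂ := 0
  a₃ := 0
  a₄ := -5 * s3
  a₆ := -cSeries

@[simp] theorem tateCurve_a₁ : tateCurve.a₁ = 1 := rfl
@[simp] theorem tateCurve_a₂ : tateCurve.a₂ = 0 := rfl
@[simp] theorem tateCurve_a₃ : tateCurve.a₃ = 0 := rfl
@[simp] theorem tateCurve_a₄ : tateCurve.a₄ = -5 * s3 := rfl
@[simp] theorem tateCurve_a₆ : tateCurve.a₆ = -cSeries := rfl

theorem tateCurve_b₂ : tateCurve.b₂ = 1 := by
  simp [WeierstrassCurve.b₂]

theorem tateCurve_b₄ : tateCurve.b₄ = -10 * s3 := by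
  simp only [WeierstrassCurve.b₄, tateCurve_a₄, tateCurve_a₁, tateCurve_a₃]
  ring

theorem tateCurve_b₆ : tateCurve.b₆ = -4 * cSeries := by
  simp only [WeierstrassCurve.b₆, tateCurve_a₃, tateCurve_a₆]
  ring

theorem tateCurve_b₈ : tateCurve.b₈ = -cSeries - 25 * s3 ^ 2 := by
  simp only [WeierstrassCurve.b₈, tateCurve_a₁, tateCurve_a₂, tateCurve_a₃, tateCurve_a₄,
    tateCurve_a₆]
  ring

/-- **`c₄(E_q) = E₄`**. -/
theorem tateCurve_c₄ : tateCurve.c₄ = e4Z := by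
  rw [WeierstrassCurve.c₄, tateCurve_b₂, tateCurve_b₄, e4Z]
  ring

/-- **`c₆(E_q) = - E₆`**. -/
theorem tateCurve_c₆ : tateCurve.c₆ = -e6Z := by
  rw [WeierstrassCurve.c₆, tateCurve_b₂, tateCurve_b₄, tateCurve_b₆, e6Z]
  linear_combination (72 : PowerSeries ℤ) * twelve_mul_cSeries

/-- **`Δ(E_q) = Δ`**. -/
theorem tateCurve_Δ : tateCurve.Δ = deltaZ := by
  rw [WeierstrassCurve.Δ, tateCurve_b₂, tateCurve_b₄, tateCurve_b₆, tateCurve_b₈, deltaZ]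
  linear_combination (-3 * (7 * s5 + 12 * cSeries - 5 * s3) : PowerSeries ℤ) * twelve_mul_cSeries

/-- `Δ(E_q) = q ∏ (1 - qⁿ)²⁴`. -/
theorem tateCurve_Δ_eq : tateCurve.Δ = X * dedekindEtaUnit := by
  rw [tateCurve_Δ, Fermat.Agent.GJ.Haupt.deltaZ_eq]

/-- **`j(E_q) = jq`**, in the cleared form `jNum · Δ = q · c₄³` (the frozen `jq` is
`q⁻¹ · jNum`). -/
theorem jNum_mul_Δ : jNum * tateCurve.Δ = X * tateCurve.c₄ ^ 3 := by
  rw [tateCurve_Δ_eq, tateCurve_c₄, jNum, Fermat.Agent.GJ.Haupt.e4Z_eq_eisenstein4]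
  have h2 := dedekindEtaUnit_mul_inv
  linear_combination (PowerSeries.X * eisenstein4 ^ 3) * h2

/-! ### `1 / j` as an integral power series -/

/-- the inverse of `E₄` in `ℤ⟦q⟧`. -/
def e4Inv : PowerSeries ℤ := e4Z.invOfUnit 1

theorem e4Z_mul_e4Inv : e4Z * e4Inv = 1 :=
  PowerSeries.mul_invOfUnit _ _ (by rw [constantCoeff_e4Z]; rfl)

theorem constantCoeff_e4Inv : constantCoeff e4Inv = 1 := by
  have h := congrArg (constantCoeff (R := ℤ)) e4Z_mul_e4Inv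
  rwa [map_mul, constantCoeff_e4Z, one_mul, map_one] at h

/-- the unit part of `1 / j`. -/
def invJUnit : PowerSeries ℤ := dedekindEtaUnit * e4Inv ^ 3

/-- `1 / j = q ∏ (1 - qⁿ)²⁴ / E₄³` as an integral power series. -/
def invJ : PowerSeries ℤ := X * invJUnit

theorem constantCoeff_invJUnit : constantCoeff invJUnit = 1 := by
  rw [invJUnit, map_mul, map_pow, constantCoeff_dedekindEtaUnit, constantCoeff_e4Inv]
  simp

theorem invJ_eq : invJ = X * invJUnit := rfl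

theorem constantCoeff_invJ : constantCoeff invJ = 0 := by
  rw [invJ, map_mul, constantCoeff_X, zero_mul]

/-- `(1/j) · E₄³ = Δ`. -/
theorem invJ_mul_e4Z_cube : invJ * e4Z ^ 3 = deltaZ := by
  rw [invJ, invJUnit, Fermat.Agent.GJ.Haupt.deltaZ_eq]
  have h := e4Z_mul_e4Inv
  have h3 : e4Inv ^ 3 * e4Z ^ 3 = 1 := by
    rw [← mul_pow, mul_comm, h, one_pow]
  calc X * (dedekindEtaUnit * e4Inv ^ 3) * e4Z ^ 3
      = X * dedekindEtaUnit * (e4Inv ^ 3 * e4Z ^ 3) := by ring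
    _ = X * dedekindEtaUnit := by rw [h3, mul_one]

/-- `(1/j) · jNum = q`: `invJ` is the inverse of the frozen `jq = q⁻¹ · jNum`. -/
theorem invJ_mul_jNum : invJ * jNum = X := by
  have h1 : jNum * deltaZ = X * e4Z ^ 3 := by
    have := jNum_mul_Δ
    rwa [tateCurve_Δ, tateCurve_c₄] at this
  have h2 := invJ_mul_e4Z_cube
  have h3 : e4Inv ^ 3 * e4Z ^ 3 = 1 := by
    rw [← mul_pow, mul_comm, e4Z_mul_e4Inv, one_pow]
  -- `invJ * jNum * e4Z³ = jNum * deltaZ = X * e4Z³`, cancel the unit `e4Z³`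
  have h4 : invJ * jNum * e4Z ^ 3 = X * e4Z ^ 3 := by
    calc invJ * jNum * e4Z ^ 3 = jNum * (invJ * e4Z ^ 3) := by ring
      _ = jNum * deltaZ := by rw [h2]
      _ = X * e4Z ^ 3 := h1
  calc invJ * jNum = invJ * jNum * (e4Z ^ 3 * e4Inv ^ 3) := by
        rw [mul_comm (e4Z ^ 3), h3, mul_one]
    _ = invJ * jNum * e4Z ^ 3 * e4Inv ^ 3 := by ring
    _ = X * e4Z ^ 3 * e4Inv ^ 3 := by rw [h4]
    _ = X * (e4Inv ^ 3 * e4Z ^ 3) := by ring
    _ = X := by rw [h3, mul_one]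

/-! ### base change -/

section Map

variable {R : Type*} [CommRing R] (φ : PowerSeries ℤ →+* R)

theorem map_tateCurve_c₄ : (tateCurve.map φ).c₄ = φ e4Z := by
  rw [WeierstrassCurve.map_c₄, tateCurve_c₄]

theorem map_tateCurve_c₆ : (tateCurve.map φ).c₆ = -φ e6Z := by
  rw [WeierstrassCurve.map_c₆, tateCurve_c₆, map_neg]

theorem map_tateCurve_Δ : (tateCurve.map φ).Δ = φ deltaZ := by
  rw [WeierstrassCurve.map_Δ, tateCurve_Δ]

theorem map_tateCurve_a₄ : (tateCurve.map φ).a₄ = -5 * φ s3 := by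
  show φ (-5 * s3) = -5 * φ s3
  rw [map_mul, map_neg, map_ofNat]

theorem map_tateCurve_a₆ : (tateCurve.map φ).a₆ = -φ cSeries := by
  show φ (-cSeries) = -φ cSeries
  rw [map_neg]

/-- `φ(1/j) · c₄³ = Δ` on the base-changed curve. -/
theorem map_invJ_mul_c₄_cube : φ invJ * (tateCurve.map φ).c₄ ^ 3 = (tateCurve.map φ).Δ := by
  rw [map_tateCurve_c₄, map_tateCurve_Δ, ← map_pow, ← map_mul, invJ_mul_e4Z_cube]

end Map

end Fermat.Agent.GZ.Tate.T0
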