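/-
GATE-Z (S15) / [MOD-beta] (T0) ↔ (T6) plug (helper3; ASK (iii) of helper91 5884):

* `ev_expand : ev x (expand N hN f) = ev (x ^ N) f` (`‖x‖ < 1`, `N ≠ 0`);
* `evalFamily K : T6.EvalFamily K` — the evaluation family `x ↦ evalInt x` of `T0/EvalInt.lean`
  (outside the open unit disc: evaluation at `0`), so that ALL of `T6/Main.lean` is binder-free;
* `jK_evalFamily : T6.jK (evalFamily K) q = q⁻¹ * ev q jNum`, `e4K/e6K/deltaK_evalFamily`,
  and the link with the pinned Tate curve: `pinned_j_eq_jK`.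
-/
import Mathlib
import Fermat.Agent.GZ.Tate.T0.Bridge
import Fermat.Agent.GZ.Tate.T6.Main

set_option autoImplicit false
set_option linter.unusedSectionVars false

noncomputable section

namespace Fermat.Agent.GZ.Tate.T0

open PowerSeries ModularCurve Fermat.Agent.S16.L1h67

variable {K : Type*} [NormedField K] [IsUltrametricDist K] [CompleteSpace K]

/-- **`f(X^N)` evaluated at `x` is `f` evaluated at `x^N`.** -/
theorem ev_expand (x : K) {N : ℕ} (hN : N ≠ 0) (f : PowerSeries ℤ) :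
    ev x (expand N hN f) = ev (x ^ N) f := by
  rw [ev, ev]
  have hinj : Function.Injective (fun m : ℕ => N * m) :=
    fun a b h => Nat.eq_of_mul_eq_mul_left (Nat.pos_of_ne_zero hN) h
  have hsupp : Function.support (evTerm x (expand N hN f)) ⊆ Set.range (fun m : ℕ => N * m) := by
    intro n hn
    by_contra hcon
    apply hn
    have hnd : ¬ N ∣ n := fun ⟨m, hm⟩ => hcon ⟨m, hm.symm⟩
    rw [evTerm, coeff_expand_of_not_dvd N hN f hnd, Int.cast_zero, zero_mul]
  rw [← hinj.tsum_eq hsupp]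
  refine tsum_congr fun m => ?_
  rw [evTerm, evTerm, coeff_expand_mul, pow_mul]

/-- evaluation at `0` (the junk branch of `evalFamily`). -/
def evalZero (K : Type*) [NormedField K] : PowerSeries ℤ →+* K :=
  (Int.castRingHom K).comp (constantCoeff (R := ℤ))

variable (K) in
/-- **the evaluation family of `T6`**: `x ↦ evalInt x` on the open unit disc. -/
def evalFamily : Fermat.Agent.GZ.Tate.T6.EvalFamily K where
  ev x := if hx : ‖x‖ < 1 then evalInt x hx else evalZero K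
  ev_X x hx := by
    rw [dif_pos hx, evalInt_apply, ev_X]
  norm_sub_le x hx f := by
    rw [dif_pos hx, evalInt_apply]
    exact norm_ev_sub_constantCoeff_le hx f
  ev_pow x hx N hN f := by
    have hxN : ‖x ^ N‖ < 1 := by
      rw [norm_pow]
      exact pow_lt_one₀ (norm_nonneg x) hx hN
    rw [dif_pos hx, dif_pos hxN, evalInt_apply, evalInt_apply, ev_expand]

theorem evalFamily_ev {x : K} (hx : ‖x‖ < 1) (f : PowerSeries ℤ) :
    (evalFamily K).ev x f = ev x f := by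
  show (if hx : ‖x‖ < 1 then evalInt x hx else evalZero K) f = ev x f
  rw [dif_pos hx, evalInt_apply]

theorem evalFamily_ev_eq {x : K} (hx : ‖x‖ < 1) : (evalFamily K).ev x = evalInt x hx := by
  ext f
  rw [evalFamily_ev hx, evalInt_apply]

theorem jK_evalFamily {q : K} (hq : ‖q‖ < 1) :
    Fermat.Agent.GZ.Tate.T6.jK (evalFamily K) q = q⁻¹ * ev q jNum := by
  rw [Fermat.Agent.GZ.Tate.T6.jK, Fermat.Agent.GZ.Tate.T6.jVal, evalFamily_ev hq, evalFamily_ev hq,
    ev_X]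

theorem e4K_evalFamily {q : K} (hq : ‖q‖ < 1) :
    Fermat.Agent.GZ.Tate.T6.e4K (evalFamily K) q = ev q e4Z := by
  rw [Fermat.Agent.GZ.Tate.T6.e4K, evalFamily_ev hq]

theorem e6K_evalFamily {q : K} (hq : ‖q‖ < 1) :
    Fermat.Agent.GZ.Tate.T6.e6K (evalFamily K) q = ev q e6Z := by
  rw [Fermat.Agent.GZ.Tate.T6.e6K, evalFamily_ev hq]

theorem deltaK_evalFamily {q : K} (hq : ‖q‖ < 1) :
    Fermat.Agent.GZ.Tate.T6.deltaK (evalFamily K) q = ev q deltaZ := by
  rw [Fermat.Agent.GZ.Tate.T6.deltaK, evalFamily_ev hq]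

/-- in the Lambert vocabulary of the pin: `E₄(q) = 1 + 240 s₃(q)`. -/
theorem e4K_evalFamily_eq {q : K} (hq : ‖q‖ < 1) :
    Fermat.Agent.GZ.Tate.T6.e4K (evalFamily K) q = 1 + 240 * sK 3 q := by
  rw [e4K_evalFamily hq, ← pinned_c₄ q hq, pinned_c₄_eq q hq]

/-- in the Lambert vocabulary of the pin: `E₆(q) = 1 - 504 s₅(q)`. -/
theorem e6K_evalFamily_eq {q : K} (hq : ‖q‖ < 1) :
    Fermat.Agent.GZ.Tate.T6.e6K (evalFamily K) q = 1 - 504 * sK 5 q := by
  have h1 := pinned_c₆ q hq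
  have h2 := pinned_c₆_eq q hq
  rw [e6K_evalFamily hq]
  have : -ev q e6Z = -1 + 504 * sK 5 q := by rw [← h1, h2]
  linear_combination -this

/-- **the `j`-invariant of the pinned Tate curve is `jK`.** -/
theorem pinned_j_eq_jK {q : K} (hq : ‖q‖ < 1)
    [(Fermat.Agent.GZ.Tate.tateCurve q).IsElliptic] :
    (Fermat.Agent.GZ.Tate.tateCurve q).j = Fermat.Agent.GZ.Tate.T6.jK (evalFamily K) q := by
  rw [pinned_j q hq, jK_evalFamily hq]

/-- the Tate parameter in `T6` vocabulary: `1 < ‖a‖ ⟹ ∃! q, 0 < ‖q‖ < 1 ∧ jK q = a`. -/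
theorem existsUnique_jK_eq {a : K} (ha : 1 < ‖a‖) :
    ∃! q : K, (‖q‖ < 1 ∧ q ≠ 0) ∧ Fermat.Agent.GZ.Tate.T6.jK (evalFamily K) q = a := by
  obtain ⟨q, ⟨⟨hq, hq0⟩, hqa⟩, huniq⟩ := existsUnique_tateParameter ha
  refine ⟨q, ⟨⟨hq, hq0⟩, by rw [jK_evalFamily hq]; exact hqa⟩, ?_⟩
  rintro q' ⟨⟨hq', hq'0⟩, hq'a⟩
  rw [jK_evalFamily hq'] at hq'a
  exact huniq q' ⟨⟨hq', hq'0⟩, hq'a⟩

end Fermat.Agent.GZ.Tate.T0
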