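/-
GATE-Z (S15) / [MOD-beta] leaf (T0), part B2 (helper3): THE TATE CURVE `E_q` OVER A COMPLETE
ULTRAMETRIC FIELD and THE INVERSE SERIES `q = j⁻¹(a)`.

`K` complete normed field with ultrametric distance, `q : K`, `‖q‖ < 1`:

* `tateCurveAt q hq : WeierstrassCurve K := tateCurve.map (evalInt q hq)`, i.e.
  `y² + x y = x³ - 5 s₃(q) x - (5 s₃(q) + 7 s₅(q))/12`;
* `c₄ = ev q e4Z`, `c₆ = - ev q e6Z`, `Δ = ev q deltaZ = q · ev q dedekindEtaUnit`;
  `‖c₄‖ = ‖c₆‖ = 1`, `‖Δ‖ = ‖q‖`; elliptic iff `q ≠ 0`;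
* `j(E_q) = q⁻¹ · ev q jNum` (the frozen `jq = X⁻¹ · jNum` evaluated at `q`), `‖j(E_q)‖ = ‖q‖⁻¹`,
  `j(E_q)⁻¹ = ev q invJ`;
* **`existsUnique_tateParameter`**: for every `a : K` with `1 < ‖a‖` there is a unique `q`,
  `0 < ‖q‖ < 1`, with `j(E_q) = a`; it has `‖q‖ = ‖a‖⁻¹`;
* `tateParameter_mem_range`: if `a` comes from a complete subfield, so does `q`.
-/
import Mathlib
import Fermat.Agent.GZ.Tate.T0.Formal
import Fermat.Agent.GZ.Tate.T0.EvalInt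

set_option autoImplicit false
set_option linter.unusedSectionVars false

noncomputable section

namespace Fermat.Agent.GZ.Tate.T0

open PowerSeries ModularCurve Fermat.Agent.S16.L1h67

variable {K : Type*} [NormedField K] [IsUltrametricDist K] [CompleteSpace K]

/-- `s_k(q) = ∑ σ_k(n) qⁿ`. -/
theorem ev_sigmaSeries (q : K) (k : ℕ) :
    ev q (sigmaSeries k) = ∑' n : ℕ, ((ArithmeticFunction.sigma k n : ℕ) : K) * q ^ n := by
  rw [ev_def]
  refine tsum_congr fun n => ?_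
  rw [sigmaSeries, coeff_mk]
  split_ifs with h
  · subst h
    simp
  · simp

/-- **the Tate curve `E_q` over `K`.** -/
def tateCurveAt (q : K) (hq : ‖q‖ < 1) : WeierstrassCurve K := tateCurve.map (evalInt q hq)

section Coeffs

variable (q : K) (hq : ‖q‖ < 1)

@[simp] theorem tateCurveAt_a₁ : (tateCurveAt q hq).a₁ = 1 := by
  show evalInt q hq 1 = 1
  exact map_one _

@[simp] theorem tateCurveAt_a₂ : (tateCurveAt q hq).a₂ = 0 := by
  show evalInt q hq 0 = 0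
  exact map_zero _

@[simp] theorem tateCurveAt_a₃ : (tateCurveAt q hq).a₃ = 0 := by
  show evalInt q hq 0 = 0
  exact map_zero _

theorem tateCurveAt_a₄ : (tateCurveAt q hq).a₄ = -5 * ev q s3 :=
  map_tateCurve_a₄ (evalInt q hq)

theorem tateCurveAt_a₆ : (tateCurveAt q hq).a₆ = -ev q cSeries :=
  map_tateCurve_a₆ (evalInt q hq)

/-- `12 a₆ = -(5 s₃(q) + 7 s₅(q))`. -/
theorem twelve_mul_tateCurveAt_a₆ :
    12 * (tateCurveAt q hq).a₆ = -(5 * ev q s3 + 7 * ev q s5) := by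
  rw [tateCurveAt_a₆]
  have h := congrArg (ev q) twelve_mul_cSeries
  rw [ev_mul hq, ev_add hq, ev_mul hq, ev_mul hq] at h
  have h12 : ev q (12 : PowerSeries ℤ) = 12 := by
    have := ev_natCast q 12
    simpa using this
  have h5 : ev q (5 : PowerSeries ℤ) = 5 := by
    have := ev_natCast q 5
    simpa using this
  have h7 : ev q (7 : PowerSeries ℤ) = 7 := by
    have := ev_natCast q 7
    simpa using this
  rw [h12, h5, h7] at h
  linear_combination -h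

theorem tateCurveAt_c₄ : (tateCurveAt q hq).c₄ = ev q e4Z :=
  map_tateCurve_c₄ (evalInt q hq)

theorem tateCurveAt_c₆ : (tateCurveAt q hq).c₆ = -ev q e6Z :=
  map_tateCurve_c₆ (evalInt q hq)

theorem tateCurveAt_Δ : (tateCurveAt q hq).Δ = ev q deltaZ :=
  map_tateCurve_Δ (evalInt q hq)

/-- `Δ(E_q) = q ∏ (1 - qⁿ)²⁴`. -/
theorem tateCurveAt_Δ_eq : (tateCurveAt q hq).Δ = q * ev q dedekindEtaUnit := by
  rw [tateCurveAt_Δ, Fermat.Agent.GJ.Haupt.deltaZ_eq, ev_X_mul hq]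

theorem norm_tateCurveAt_c₄ : ‖(tateCurveAt q hq).c₄‖ = 1 := by
  rw [tateCurveAt_c₄]
  exact norm_ev_eq_one hq constantCoeff_e4Z

theorem norm_tateCurveAt_c₆ : ‖(tateCurveAt q hq).c₆‖ = 1 := by
  rw [tateCurveAt_c₆, norm_neg]
  exact norm_ev_eq_one hq constantCoeff_e6Z

theorem tateCurveAt_c₄_ne_zero : (tateCurveAt q hq).c₄ ≠ 0 := by
  rw [tateCurveAt_c₄]
  exact ev_ne_zero hq constantCoeff_e4Z

/-- **`|Δ(E_q)| = |q|`.** -/
theorem norm_tateCurveAt_Δ : ‖(tateCurveAt q hq).Δ‖ = ‖q‖ := by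
  rw [tateCurveAt_Δ_eq, norm_mul, norm_ev_eq_one hq constantCoeff_dedekindEtaUnit, mul_one]

theorem tateCurveAt_Δ_ne_zero (hq0 : q ≠ 0) : (tateCurveAt q hq).Δ ≠ 0 := by
  rw [← norm_ne_zero_iff, norm_tateCurveAt_Δ]
  exact norm_ne_zero_iff.mpr hq0

theorem tateCurveAt_isElliptic (hq0 : q ≠ 0) : (tateCurveAt q hq).IsElliptic :=
  ⟨(tateCurveAt_Δ_ne_zero q hq hq0).isUnit⟩

theorem ne_zero_of_tateCurveAt_isElliptic [h : (tateCurveAt q hq).IsElliptic] : q ≠ 0 := by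
  rintro rfl
  have h1 := h.isUnit
  rw [tateCurveAt_Δ_eq, zero_mul] at h1
  exact not_isUnit_zero h1

/-- `jNum(q) · Δ = q · c₄³`. -/
theorem ev_jNum_mul_Δ :
    ev q jNum * (tateCurveAt q hq).Δ = q * (tateCurveAt q hq).c₄ ^ 3 := by
  have h := congrArg (evalInt q hq) jNum_mul_Δ
  rw [map_mul, map_mul, map_pow, evalInt_apply, evalInt_apply, evalInt_apply, evalInt_apply,
    ev_X] at h
  rw [tateCurveAt, WeierstrassCurve.map_Δ, WeierstrassCurve.map_c₄]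
  exact h

/-- **`j(E_q) = q⁻¹ · jNum(q)`**, the frozen `jq` evaluated at `q`. -/
theorem tateCurveAt_j [(tateCurveAt q hq).IsElliptic] :
    (tateCurveAt q hq).j = q⁻¹ * ev q jNum := by
  have hq0 : q ≠ 0 := ne_zero_of_tateCurveAt_isElliptic q hq
  have hΔ : (tateCurveAt q hq).Δ ≠ 0 := tateCurveAt_Δ_ne_zero q hq hq0
  rw [WeierstrassCurve.j, Units.inv_mul_eq_iff_eq_mul, WeierstrassCurve.coe_Δ']
  have h := ev_jNum_mul_Δ q hq
  field_simp
  linear_combination -h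

include hq in
/-- `q = invJ(q) · jNum(q)`. -/
theorem ev_invJ_mul_ev_jNum : ev q invJ * ev q jNum = q := by
  rw [← ev_mul hq, invJ_mul_jNum, ev_X]

/-- **`1 / j(E_q) = invJ(q)`.** -/
theorem tateCurveAt_j_inv [(tateCurveAt q hq).IsElliptic] :
    ((tateCurveAt q hq).j)⁻¹ = ev q invJ := by
  have hq0 : q ≠ 0 := ne_zero_of_tateCurveAt_isElliptic q hq
  have hJ : ev q jNum ≠ 0 := ev_ne_zero hq constantCoeff_jNum
  rw [tateCurveAt_j, mul_inv, inv_inv]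
  have h := ev_invJ_mul_ev_jNum q hq
  field_simp
  linear_combination -h

include hq in
theorem norm_ev_invJ : ‖ev q invJ‖ = ‖q‖ := by
  rw [invJ_eq]
  exact norm_ev_X_mul hq constantCoeff_invJUnit

/-- **`|j(E_q)| = 1 / |q|`.** -/
theorem norm_tateCurveAt_j [(tateCurveAt q hq).IsElliptic] :
    ‖(tateCurveAt q hq).j‖ = ‖q‖⁻¹ := by
  rw [tateCurveAt_j, norm_mul, norm_inv, norm_ev_eq_one hq constantCoeff_jNum, mul_one]

end Coeffs

/-! ### the inverse series -/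

/-- `invJ(q) = b` has a unique solution in the open unit disc, for `‖b‖ < 1`; `‖q‖ = ‖b‖`. -/
theorem existsUnique_ev_invJ_eq {b : K} (hb : ‖b‖ < 1) : ∃! q : K, ‖q‖ < 1 ∧ ev q invJ = b := by
  simpa only [invJ_eq] using existsUnique_ev_X_mul_eq constantCoeff_invJUnit hb

/-- **the Tate parameter**: for `1 < ‖a‖` there is a unique `q` with `0 < ‖q‖ < 1` and
`q⁻¹ · jNum(q) = a` (i.e. `j(E_q) = a`, see `tateCurveAt_j`). -/
theorem existsUnique_tateParameter {a : K} (ha : 1 < ‖a‖) :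
    ∃! q : K, (‖q‖ < 1 ∧ q ≠ 0) ∧ q⁻¹ * ev q jNum = a := by
  have ha0 : a ≠ 0 := by
    rintro rfl
    rw [norm_zero] at ha
    linarith
  have hb : ‖a⁻¹‖ < 1 := by
    rw [norm_inv]
    exact inv_lt_one_of_one_lt₀ ha
  -- the equation `q⁻¹ jNum(q) = a` is `invJ(q) = a⁻¹`
  have key : ∀ q : K, ‖q‖ < 1 → ((q ≠ 0 ∧ q⁻¹ * ev q jNum = a) ↔ ev q invJ = a⁻¹) := by
    intro q hq
    have hJ : ev q jNum ≠ 0 := ev_ne_zero hq constantCoeff_jNum
    have h := ev_invJ_mul_ev_jNum q hq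
    constructor
    · rintro ⟨hq0, hqa⟩
      rw [← hqa, mul_inv, inv_inv]
      field_simp
      linear_combination h
    · intro hinv
      have hq0 : q ≠ 0 := by
        rintro rfl
        rw [invJ_eq, ev_X_mul hq, zero_mul] at hinv
        exact inv_ne_zero ha0 hinv.symm
      refine ⟨hq0, ?_⟩
      rw [hinv] at h
      field_simp
      field_simp at h
      linear_combination h
  obtain ⟨q, ⟨hq, hqb⟩, huniq⟩ := existsUnique_ev_invJ_eq hb
  obtain ⟨hq0, hqa⟩ := (key q hq).mpr hqb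
  refine ⟨q, ⟨⟨hq, hq0⟩, hqa⟩, ?_⟩
  rintro q' ⟨⟨hq', hq'0⟩, hq'a⟩
  exact huniq q' ⟨hq', (key q' hq').mp ⟨hq'0, hq'a⟩⟩

/-- the norm of the Tate parameter. -/
theorem norm_eq_of_tateParameter {a q : K} (hq : ‖q‖ < 1) (hqa : q⁻¹ * ev q jNum = a) :
    ‖q‖ = ‖a‖⁻¹ := by
  rw [← hqa, norm_mul, norm_inv, norm_ev_eq_one hq constantCoeff_jNum, mul_one, inv_inv]

/-- **(T0) in curve form**: for `1 < ‖a‖` there is a unique `q ≠ 0` in the open unit disc such that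
the Tate curve `E_q` (elliptic) has `j(E_q) = a`; and `‖q‖ = ‖a‖⁻¹`. -/
theorem exists_tateCurveAt_j_eq {a : K} (ha : 1 < ‖a‖) :
    ∃ (q : K) (hq : ‖q‖ < 1) (_hE : (tateCurveAt q hq).IsElliptic),
      q ≠ 0 ∧ ‖q‖ = ‖a‖⁻¹ ∧ (tateCurveAt q hq).j = a ∧
      ∀ (q' : K) (hq' : ‖q'‖ < 1) (_hE' : (tateCurveAt q' hq').IsElliptic),
        (tateCurveAt q' hq').j = a → q' = q := by
  obtain ⟨q, ⟨⟨hq, hq0⟩, hqa⟩, huniq⟩ := existsUnique_tateParameter ha
  have hE := tateCurveAt_isElliptic q hq hq0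
  refine ⟨q, hq, hE, hq0, norm_eq_of_tateParameter hq hqa, ?_, ?_⟩
  · rw [tateCurveAt_j]
    exact hqa
  · intro q' hq' hE' hj
    have hq'0 : q' ≠ 0 := ne_zero_of_tateCurveAt_isElliptic q' hq'
    rw [tateCurveAt_j] at hj
    exact huniq q' ⟨⟨hq', hq'0⟩, hj⟩

/-- descent of the Tate parameter to a complete subfield: if `a = ι a₀` for a continuous,
norm-preserving `ι : K₀ →+* K` (`K₀` complete ultrametric), then `q ∈ range ι`. -/
theorem tateParameter_mem_range {K₀ : Type*} [NormedField K₀] [IsUltrametricDist K₀]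
    [CompleteSpace K₀] (ι : K₀ →+* K) (hι : ∀ x, ‖ι x‖ = ‖x‖) {a₀ : K₀} (ha : 1 < ‖a₀‖)
    {q : K} (hq : ‖q‖ < 1) (hqa : q⁻¹ * ev q jNum = ι a₀) :
    ∃ q₀ : K₀, ‖q₀‖ < 1 ∧ q₀ ≠ 0 ∧ q₀⁻¹ * ev q₀ jNum = a₀ ∧ ι q₀ = q := by
  have hcont : Continuous ι := by
    refine continuous_of_continuousAt_zero ι.toAddMonoidHom ?_
    rw [Metric.continuousAt_iff]
    intro ε hε
    refine ⟨ε, hε, fun x hx => ?_⟩
    rw [dist_eq_norm] at hx ⊢
    simpa [hι] using hx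
  obtain ⟨q₀, ⟨⟨hq₀, hq₀0⟩, hq₀a⟩, -⟩ := existsUnique_tateParameter ha
  have ha' : 1 < ‖ι a₀‖ := by rw [hι]; exact ha
  obtain ⟨q1, -, huniq⟩ := existsUnique_tateParameter ha'
  have hq0 : q ≠ 0 := by
    rintro rfl
    rw [inv_zero, zero_mul] at hqa
    rw [← hqa, norm_zero] at ha'
    linarith
  have h1 : q = q1 := huniq q ⟨⟨hq, hq0⟩, hqa⟩
  have h2 : ι q₀ = q1 := by
    refine huniq (ι q₀) ⟨⟨by rw [hι]; exact hq₀, ?_⟩, ?_⟩
    · rw [← norm_ne_zero_iff, hι]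
      exact norm_ne_zero_iff.mpr hq₀0
    · rw [← ev_map_of_continuous ι hcont hq₀, ← map_inv₀, ← map_mul, hq₀a]
  exact ⟨q₀, hq₀, hq₀0, hq₀a, h2.trans h1.symm⟩

end Fermat.Agent.GZ.Tate.T0
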